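import Fermat.Agent.JacobiSatoTate.Degeneracy
import Fermat.Agent.FermatTwist.Character
import Fermat.Agent.ArtinReciprocity.RayNorm
import Fermat.Agent.AlgebraicHecke.Angles

/-!
# Monomials in the conjugates of a twisted Jacobi sum

For integers `u`, `d` and exponents `e t`, `1 ≤ t ≤ (l - 1) / 2`, the product over `t` of the powers
of `(d / N v) χ_v (u) ^ t J_{t,t} (v)` is an algebraic character of weight `∑ |e t|`, and its type is
conjugation symmetric only for `e = 0`. So its angles have mean zero.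
-/

set_option autoImplicit false
set_option linter.unusedSectionVars false

noncomputable section

open NumberField IsDedekindDomain Ideal Filter Topology
open FA.PowerReciprocity FA.IwasawaStructure FA.GaussValuation FA.FermatHW FA.FermatTwist
open FA.AlgHecke (IsAlgChar IsPure IsNormPower typeVal typeVal_ne_zero)
open FA.Hecke (HasMean)
open scoped Classical ComplexConjugate

namespace FA.JacobiST

universe u

variable {K : Type u} [Field K] [NumberField K]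

/-! ### Products of algebraic characters -/

theorem typeVal_add (n n' : (K →+* ℂ) → ℤ) {x : K} (hx : x ≠ 0) :
    typeVal (fun σ => n σ + n' σ) x = typeVal n x * typeVal n' x := by
  simp only [typeVal, ← Finset.prod_mul_distrib]
  exact Finset.prod_congr rfl fun σ _ => zpow_add₀ ((map_ne_zero σ).2 hx) _ _

theorem typeVal_sum {ι : Type*} (s : Finset ι) (k : ι → ℕ) (n : ι → (K →+* ℂ) → ℤ) {x : K}
    (hx : x ≠ 0) : typeVal (fun σ => ∑ i ∈ s, (k i : ℤ) * n i σ) x = ∏ i ∈ s, typeVal (n i) x ^ k i := by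
  induction s using Finset.induction_on with
  | empty => simp [typeVal]
  | insert i s hi ih =>
    rw [Finset.prod_insert hi, ← ih]
    simp only [Finset.sum_insert hi]
    rw [typeVal_add _ _ hx]
    congr 1
    rw [typeVal, typeVal, ← Finset.prod_pow]
    exact Finset.prod_congr rfl fun σ _ => by rw [← zpow_natCast (σ x ^ _), ← zpow_mul, mul_comm]

/-- A type that is not symmetric is not the type of a power of the norm. -/
theorem not_isNormPower_of_type {𝔪 : Ideal (𝓞 K)} {n : (K →+* ℂ) → ℤ} {f : Ideal (𝓞 K) →* ℂ}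
    (h : IsAlgChar 𝔪 n f) {w : ℤ} (hw : IsPure n w)
    (hne : ∃ σ, n σ ≠ n (ComplexEmbedding.conjugate σ)) : ¬ IsNormPower f := by
  obtain ⟨σ, hσ⟩ := hne
  have hreal : ¬ ComplexEmbedding.IsReal σ := fun e => hσ (by rw [ComplexEmbedding.isReal_iff.1 e])
  have hv : InfinitePlace.IsComplex (InfinitePlace.mk σ) := InfinitePlace.isComplex_mk_iff.2 hreal
  have hk : FA.AlgHecke.kOf n ≠ 0 := fun e => by
    have h0 : n (InfinitePlace.mk σ).embedding =
        n (ComplexEmbedding.conjugate (InfinitePlace.mk σ).embedding) :=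
      sub_eq_zero.1 (congrFun e ⟨_, hv⟩)
    rcases InfinitePlace.embedding_mk_eq σ with e | e
    · rw [e] at h0; exact hσ h0
    · rw [e, show ComplexEmbedding.conjugate (ComplexEmbedding.conjugate σ) = σ from star_star σ] at h0
      exact hσ h0.symm
  intro hp
  obtain ⟨E, hE, hE', -⟩ := FA.IdeleClass.exists_entire_of_ne (h.torus hw) (Or.inl (Or.inr hk))
  refine h.not_entire_of_normPower hw hp ⟨fun s => E (s - (w : ℂ) / 2),
    hE.comp (differentiable_id.sub_const _), fun s hs => ?_⟩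
  show HasSum _ (E (s - (w : ℂ) / 2))
  rw [← hE' _ (by simp; linarith)]
  exact h.hasSum hw hs

/-! ### The sign -/

theorem coprime_absNorm_iff {m : ℕ} (hm : m ≠ 0) {I : Ideal (𝓞 K)} (hI : I ≠ ⊥) :
    m.Coprime (absNorm I) ↔ I ⊔ Ideal.span {(m : 𝓞 K)} = ⊤ := by
  constructor
  · intro h
    rw [Ideal.eq_top_iff_one]
    have h1 : IsCoprime ((absNorm I : ℕ) : 𝓞 K) (m : 𝓞 K) := by
      have := (Nat.Coprime.isCoprime h.symm).map (Int.castRingHom (𝓞 K))
      simpa using this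
    obtain ⟨a, b, hab⟩ := h1
    rw [← hab]
    exact Submodule.add_mem_sup (Ideal.mul_mem_left _ _ (Ideal.absNorm_mem I))
      (Ideal.mul_mem_left _ _ (Ideal.mem_span_singleton_self _))
  · intro h
    refine Nat.coprime_of_dvd fun r hr hrm hrI => ?_
    have : Finite (𝓞 K ⧸ I) := Ideal.finiteQuotientOfFreeOfNeBot I hI
    have := Fact.mk hr
    obtain ⟨z, hz⟩ := exists_prime_addOrderOf_dvd_card' (G := 𝓞 K ⧸ I) r (by
      rwa [absNorm_apply, Submodule.cardQuot_apply] at hrI)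
    obtain ⟨i, hi, y, hy, e⟩ := Submodule.mem_sup.1 ((Ideal.eq_top_iff_one _).1 h)
    obtain ⟨q, rfl⟩ := Ideal.mem_span_singleton.1 hy
    obtain ⟨c, rfl⟩ := hrm
    have h3 := congrArg (Ideal.Quotient.mk I) e
    rw [map_add, Ideal.Quotient.eq_zero_iff_mem.2 hi, zero_add, map_mul, map_natCast, map_one] at h3
    have h2 : (r : 𝓞 K ⧸ I) * z = 0 := by
      rw [← nsmul_eq_mul, ← hz]; exact addOrderOf_nsmul_eq_zero z
    have hz0 : z = 0 := by
      rw [← one_mul z, ← h3, Nat.cast_mul, show (r : 𝓞 K ⧸ I) * (c : 𝓞 K ⧸ I) * Ideal.Quotient.mk I q * z =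
        (c : 𝓞 K ⧸ I) * Ideal.Quotient.mk I q * ((r : 𝓞 K ⧸ I) * z) by ring, h2, mul_zero]
    rw [hz0, addOrderOf_zero] at hz
    exact hr.ne_one hz.symm

/-- `(d / N I)` on the ideals of norm prime to `4 d`. -/
def signChar (K : Type u) [Field K] [NumberField K] (d : ℤ) : Ideal (𝓞 K) →* ℂ where
  toFun I := if (4 * d.natAbs).Coprime (absNorm I) then ((jacobiSym d (absNorm I) : ℤ) : ℂ) else 0
  map_one' := by simp
  map_mul' I J := by
    rw [map_mul absNorm]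
    by_cases h : (4 * d.natAbs).Coprime (absNorm I) ∧ (4 * d.natAbs).Coprime (absNorm J)
    · have h0 : ∀ {a : ℕ}, (4 * d.natAbs).Coprime a → a ≠ 0 := fun ha e => by
        rw [e, Nat.coprime_zero_right] at ha; omega
      rw [if_pos h.1, if_pos h.2, if_pos (Nat.coprime_mul_iff_right.2 h),
        jacobiSym.mul_right' d (h0 h.1) (h0 h.2), Int.cast_mul]
    · rw [if_neg fun e => h (Nat.coprime_mul_iff_right.1 e)]
      rcases not_and_or.1 h with e | e <;> simp [e]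

theorem signChar_apply (d : ℤ) (I : Ideal (𝓞 K)) : signChar K d I =
    if (4 * d.natAbs).Coprime (absNorm I) then ((jacobiSym d (absNorm I) : ℤ) : ℂ) else 0 := rfl

theorem signChar_ne_zero_iff {d : ℤ} (hd : d ≠ 0) {I : Ideal (𝓞 K)} (hI : I ≠ ⊥) :
    signChar K d I ≠ 0 ↔ I ⊔ Ideal.span {((4 * d.natAbs : ℕ) : 𝓞 K)} = ⊤ := by
  rw [← coprime_absNorm_iff (mul_ne_zero four_ne_zero (Int.natAbs_ne_zero.2 hd)) hI, signChar_apply]
  constructor
  · intro h; by_contra h'; exact h (if_neg h')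
  · intro h
    rw [if_pos h, Int.cast_ne_zero]
    refine jacobiSym.ne_zero ?_
    rw [Int.gcd_def, Int.natAbs_natCast]
    exact Nat.Coprime.coprime_mul_left h

theorem signChar_ray {d : ℤ} (hd : d ≠ 0) {x : 𝓞 K}
    (hx : FA.Hecke.IsRayElt (Ideal.span {((4 * d.natAbs : ℕ) : 𝓞 K)}) x) :
    signChar K d (Ideal.span {x}) = 1 := by
  have hd0 : 0 < d.natAbs := Int.natAbs_pos.2 hd
  have : NeZero (4 * d.natAbs) := ⟨by omega⟩
  have h1 := FA.ArtinRec.absNorm_of_ray (4 * d.natAbs) hx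
  set M := absNorm (Ideal.span {x})
  have hM : M % (4 * d.natAbs) = 1 := by
    have := congrArg ZMod.val h1
    rw [ZMod.val_natCast] at this
    rw [this]
    have : Fact (1 < 4 * d.natAbs) := ⟨by omega⟩
    exact ZMod.val_one _
  have hcop : (4 * d.natAbs).Coprime M := (ZMod.isUnit_iff_coprime M _).1 (h1 ▸ isUnit_one) |>.symm
  have hodd : Odd M := by
    rw [Nat.odd_iff, ← Nat.mod_mod_of_dvd M (show 2 ∣ 4 * d.natAbs from Dvd.dvd.mul_right (by norm_num) _), hM]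
  rw [signChar_apply, if_pos hcop, jacobiSym.mod_right d hodd, hM, jacobiSym.one_right, Int.cast_one]

/-! ### The monomials -/

variable {l : ℕ} [hl : Fact l.Prime] [IsCyclotomicExtension {l} ℚ K]

/-- The index `t`. -/
def tIdx {l : ℕ} (i : Fin (l / 2)) : ℕ := (i : ℕ) + 1

theorem tIdx_spec (hl2 : l ≠ 2) (i : Fin (l / 2)) :
    0 < tIdx i ∧ tIdx i < l ∧ ¬ l ∣ tIdx i ∧ ¬ l ∣ tIdx i + tIdx i ∧
      ¬ l ∣ l - tIdx i ∧ ¬ l ∣ (l - tIdx i) + (l - tIdx i) := by
  have := i.isLt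
  have hodd := Nat.odd_iff.1 (hl.out.odd_of_ne_two hl2)
  have key : ∀ x, 0 < x → x < l → ¬ l ∣ x ∧ ¬ l ∣ x + x := fun x h0 h1 =>
    ⟨fun e => absurd (Nat.le_of_dvd h0 e) (by omega), fun e => by
      rw [← two_mul] at e
      rcases hl.out.dvd_mul.1 e with e | e
      · exact hl2 ((Nat.prime_dvd_prime_iff_eq hl.out Nat.prime_two).1 e)
      · exact absurd (Nat.le_of_dvd h0 e) (by omega)⟩
  have ht : 0 < tIdx i ∧ tIdx i < l := by rw [tIdx]; omega
  exact ⟨ht.1, ht.2, (key _ ht.1 ht.2).1, (key _ ht.1 ht.2).2,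
    (key _ (by omega) (by omega)).1, (key _ (by omega) (by omega)).2⟩

/-- The weight. -/
def weight {l : ℕ} (e : Fin (l / 2) → ℤ) : ℕ := ∑ i, (e i).natAbs

/-- The monomial, a conjugate standing for a negative exponent. -/
def monomialChar (φ : K →+* ℂ) (l : ℕ) [Fact l.Prime] [IsCyclotomicExtension {l} ℚ K] (u d : ℤ)
    (e : Fin (l / 2) → ℤ) : Ideal (𝓞 K) →* ℂ where
  toFun I := signChar K d I ^ weight e * ∏ i,
    twistChar φ l (u : 𝓞 K) 1 (tIdx i) (tIdx i) I ^ (e i).toNat *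
      twistChar φ l (u : 𝓞 K) 1 (l - tIdx i) (l - tIdx i) I ^ (-e i).toNat
  map_one' := by simp only [map_one, one_pow, mul_one, Finset.prod_const_one]
  map_mul' I J := by
    simp only [map_mul, mul_pow, Finset.prod_mul_distrib]
    ring

theorem monomialChar_apply (φ : K →+* ℂ) (u d : ℤ) (e : Fin (l / 2) → ℤ) (I : Ideal (𝓞 K)) :
    monomialChar φ l u d e I = signChar K d I ^ weight e * ∏ i,
      twistChar φ l (u : 𝓞 K) 1 (tIdx i) (tIdx i) I ^ (e i).toNat *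
        twistChar φ l (u : 𝓞 K) 1 (l - tIdx i) (l - tIdx i) I ^ (-e i).toNat := rfl

/-- Its type. -/
def monomialType (φ : K →+* ℂ) (l : ℕ) [Fact l.Prime] [IsCyclotomicExtension {l} ℚ K]
    (e : Fin (l / 2) → ℤ) (σ : K →+* ℂ) : ℤ :=
  ∑ i, ((e i).toNat : ℤ) * jacobiType φ l (tIdx i) (tIdx i) σ +
    ∑ i, ((-e i).toNat : ℤ) * jacobiType φ l (l - tIdx i) (l - tIdx i) σ

theorem monomialType_pure (hl2 : l ≠ 2) (φ : K →+* ℂ) (e : Fin (l / 2) → ℤ) :
    IsPure (monomialType φ l e) (weight e : ℤ) := fun σ => by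
  rw [monomialType, monomialType, weight, add_add_add_comm, ← Finset.sum_add_distrib,
    ← Finset.sum_add_distrib, ← Finset.sum_add_distrib, Nat.cast_sum]
  refine Finset.sum_congr rfl fun i _ => ?_
  obtain ⟨-, -, h1, h2, h3, h4⟩ := tIdx_spec hl2 i
  rw [← mul_add, ← mul_add, jacobiType_conj h1 h1 h2, jacobiType_conj h3 h3 h4, mul_one, mul_one]
  omega

theorem monomialType_not_symm (hl2 : l ≠ 2) (φ : K →+* ℂ) {e : Fin (l / 2) → ℤ} (he : e ≠ 0) :
    ∃ σ, monomialType φ l e σ ≠ monomialType φ l e (ComplexEmbedding.conjugate σ) := by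
  have : NeZero l := ⟨hl.out.ne_zero⟩
  by_contra hc
  push Not at hc
  refine he (funext fun i => eq_zero_of_halfSign hl2 (fun s hs => ?_) i)
  have hs' : ¬ l ∣ s.val := fun h => hs ((ZMod.val_eq_zero s).1 (Nat.eq_zero_of_dvd_of_lt h (ZMod.val_lt s)))
  obtain ⟨g, hg, -⟩ := exists_expo_eq (K := K) hs'
  rw [Nat.mod_eq_of_lt (ZMod.val_lt s)] at hg
  have key := hc (embEquiv φ l g)
  simp only [monomialType] at key
  have h1 : ∀ i : Fin (l / 2),
      halfSign ((((i : ℕ) + 1 : ℕ) : ZMod l) * s) =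
        jacobiType φ l (tIdx i) (tIdx i) (embEquiv φ l g) -
          jacobiType φ l (tIdx i) (tIdx i) (ComplexEmbedding.conjugate (embEquiv φ l g)) := fun i => by
    obtain ⟨-, -, h1, h2, -, -⟩ := tIdx_spec hl2 i
    have h3 := jacobiType_conj (φ := φ) h1 h1 h2 (embEquiv φ l g)
    have h4 : jacobiType φ l (tIdx i) (tIdx i) (embEquiv φ l g) =
        (cmExpo l (tIdx i) (tIdx i) s.val : ℤ) := by
      rw [jacobiType, Equiv.symm_apply_apply, hg]
    have h5 : ((((i : ℕ) + 1 : ℕ) : ZMod l) * s).val = tIdx i * s.val % l := by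
      rw [ZMod.val_mul, ZMod.val_natCast, Nat.mod_mul_mod]; rfl
    rw [halfSign, h5]
    rw [h4] at h3 ⊢
    rw [cmExpo] at h3 ⊢
    split_ifs at h3 ⊢ <;> omega
  calc ∑ i, e i * halfSign ((((i : ℕ) + 1 : ℕ) : ZMod l) * s)
      = (∑ i, ((e i).toNat : ℤ) * jacobiType φ l (tIdx i) (tIdx i) (embEquiv φ l g) +
          ∑ i, ((-e i).toNat : ℤ) * jacobiType φ l (l - tIdx i) (l - tIdx i) (embEquiv φ l g)) -
        (∑ i, ((e i).toNat : ℤ) *
            jacobiType φ l (tIdx i) (tIdx i) (ComplexEmbedding.conjugate (embEquiv φ l g)) +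
          ∑ i, ((-e i).toNat : ℤ) * jacobiType φ l (l - tIdx i) (l - tIdx i)
            (ComplexEmbedding.conjugate (embEquiv φ l g))) := by
        rw [← Finset.sum_add_distrib, ← Finset.sum_add_distrib, ← Finset.sum_sub_distrib]
        refine Finset.sum_congr rfl fun i _ => ?_
        obtain ⟨-, ht, h1', h2', -, -⟩ := tIdx_spec hl2 i
        rw [h1 i, jacobiType_neg h1' h1' h2' ht ht, jacobiType_neg h1' h1' h2' ht ht,
          show ComplexEmbedding.conjugate (ComplexEmbedding.conjugate (embEquiv φ l g)) =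
            embEquiv φ l g from star_star _]
        conv_lhs => rw [← Int.toNat_sub_toNat_neg (e i)]
        ring
    _ = 0 := sub_eq_zero.2 key

theorem isBad_twist {u : ℤ} (hu : u ≠ 0) :
    IsBad l ((l : 𝓞 K) * (u : 𝓞 K)) (u : 𝓞 K) 1 where
  ne_zero := mul_ne_zero (Nat.cast_ne_zero.2 hl.out.ne_zero) (Int.cast_ne_zero.2 hu)
  dvd_l := dvd_mul_right _ _
  dvd_u := dvd_pow (dvd_mul_left _ _) (Nat.sub_ne_zero_of_lt hl.out.one_lt)
  dvd_w := one_dvd _
  mem _ hP h := (hP.mem_or_mem h).imp_right Or.inl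

/-- **The monomial is an algebraic character.** -/
theorem exists_isAlgChar_monomial (hl2 : l ≠ 2) (φ : K →+* ℂ) {u d : ℤ} (hu : u ≠ 0) (hd : d ≠ 0)
    {e : Fin (l / 2) → ℤ} (he : e ≠ 0) :
    ∃ 𝔪, IsAlgChar 𝔪 (monomialType φ l e) (monomialChar φ l u d e) := by
  obtain ⟨k, hk⟩ := exists_isAlgChar_twist (K := K) (l := l) hl2
  set N := (l : 𝓞 K) * (u : 𝓞 K)
  have hbad : IsBad l N (u : 𝓞 K) 1 := isBad_twist hu
  set 𝔞 := Ideal.span {N} ^ k
  set 𝔟 := Ideal.span {((4 * d.natAbs : ℕ) : 𝓞 K)}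
  have hA : ∀ i : Fin (l / 2), IsAlgChar 𝔞 (jacobiType φ l (tIdx i) (tIdx i))
      (twistChar φ l (u : 𝓞 K) 1 (tIdx i) (tIdx i)) ∧
      IsAlgChar 𝔞 (jacobiType φ l (l - tIdx i) (l - tIdx i))
      (twistChar φ l (u : 𝓞 K) 1 (l - tIdx i) (l - tIdx i)) := fun i => by
    obtain ⟨-, -, h1, h2, h3, h4⟩ := tIdx_spec hl2 i
    exact ⟨hk _ _ _ _ _ φ hbad (Int.cast_ne_zero.2 hu) one_ne_zero h1 h1 h2,
      hk _ _ _ _ _ φ hbad (Int.cast_ne_zero.2 hu) one_ne_zero h3 h3 h4⟩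
  obtain ⟨i₀, hi₀⟩ := Function.ne_iff.1 he
  have hb0 : 𝔟 ≠ ⊥ := by
    rw [ne_eq, Ideal.span_singleton_eq_bot, Nat.cast_eq_zero]
    exact mul_ne_zero four_ne_zero (Int.natAbs_ne_zero.2 hd)
  have hW : weight e ≠ 0 := fun h0 => hi₀ (Int.natAbs_eq_zero.1
    (Finset.sum_eq_zero_iff.1 h0 i₀ (Finset.mem_univ _)))
  refine ⟨𝔞 * 𝔟, mul_ne_zero (hA i₀).1.ne_bot hb0, fun I hI => ?_, fun x hx => ?_⟩
  · rw [monomialChar_apply, mul_ne_zero_iff, pow_ne_zero_iff hW, signChar_ne_zero_iff hd hI,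
      Finset.prod_ne_zero_iff]
    constructor
    · rintro ⟨h1, h2⟩
      have h3 : I ⊔ 𝔞 = ⊤ := by
        have h := mul_ne_zero_iff.1 (h2 i₀ (Finset.mem_univ _))
        rcases lt_or_gt_of_ne hi₀ with hlt | hlt
        · exact ((hA i₀).2.ne_zero_iff I hI).1 ((pow_ne_zero_iff (by simp at hlt; omega)).1 h.2)
        · exact ((hA i₀).1.ne_zero_iff I hI).1 ((pow_ne_zero_iff (by simp at hlt; omega)).1 h.1)
      exact Ideal.isCoprime_iff_sup_eq.1 ((Ideal.isCoprime_iff_sup_eq.2 h3).mul_right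
        (Ideal.isCoprime_iff_sup_eq.2 h1))
    · intro h
      have h' := Ideal.isCoprime_iff_sup_eq.2 h
      have h3 := Ideal.isCoprime_iff_sup_eq.1 h'.of_mul_right_left
      exact ⟨Ideal.isCoprime_iff_sup_eq.1 h'.of_mul_right_right, fun i _ => mul_ne_zero
        (pow_ne_zero _ (((hA i).1.ne_zero_iff I hI).2 h3))
        (pow_ne_zero _ (((hA i).2.ne_zero_iff I hI).2 h3))⟩
  · obtain ⟨hx0, hx1, hxp⟩ := hx
    have ha : FA.Hecke.IsRayElt 𝔞 x := ⟨hx0, (Ideal.mul_le_left : 𝔞 * 𝔟 ≤ 𝔞) hx1, hxp⟩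
    have hb : FA.Hecke.IsRayElt 𝔟 x := ⟨hx0, (Ideal.mul_le_right : 𝔞 * 𝔟 ≤ 𝔟) hx1, hxp⟩
    have hx' : (x : K) ≠ 0 := RingOfIntegers.coe_ne_zero_iff.mpr hx0
    rw [monomialChar_apply, signChar_ray hd hb, one_pow, one_mul, Finset.prod_mul_distrib,
      show monomialType φ l e = fun σ => _ + _ from rfl, typeVal_add _ _ hx',
      typeVal_sum _ _ _ hx', typeVal_sum _ _ _ hx']
    exact congrArg₂ (· * ·) (Finset.prod_congr rfl fun i _ => by rw [(hA i).1.ray x ha])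
      (Finset.prod_congr rfl fun i _ => by rw [(hA i).2.ray x ha])

/-! ### The values at the primes -/

/-- `(d / N v) χ_v (u) ^ t J_{t,t} (v) / √ N v`. -/
def angleVal (φ : K →+* ℂ) (l : ℕ) (u d : ℤ) (v : HeightOneSpectrum (𝓞 K)) (t : ℕ) : ℂ :=
  (jacobiSym d (absNorm v.asIdeal) : ℂ) *
    φ (twistValue l (u : 𝓞 K) 1 t t v.asIdeal : K) / (Real.sqrt (absNorm v.asIdeal : ℕ) : ℂ)

/-- Away from `4 d l u`. -/
def IsGood (l : ℕ) (u d : ℤ) (v : HeightOneSpectrum (𝓞 K)) : Prop :=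
  (l : 𝓞 K) ∉ v.asIdeal ∧ (u : 𝓞 K) ∉ v.asIdeal ∧ (4 * d.natAbs).Coprime (absNorm v.asIdeal)

theorem finite_not_isGood {u d : ℤ} (hu : u ≠ 0) (hd : d ≠ 0) :
    {v : HeightOneSpectrum (𝓞 K) | ¬ IsGood l u d v}.Finite := by
  have hm : (4 * d.natAbs) ≠ 0 := mul_ne_zero four_ne_zero (Int.natAbs_ne_zero.2 hd)
  refine (FA.AlgHecke.finite_primes_dividing (𝔪 := Ideal.span {(l : 𝓞 K) * (u : 𝓞 K)} *
    Ideal.span {((4 * d.natAbs : ℕ) : 𝓞 K)}) ?_).subset fun v hv htop => hv ?_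
  · refine mul_ne_zero ?_ ?_ <;> rw [ne_eq, Ideal.zero_eq_bot, Ideal.span_singleton_eq_bot]
    · exact mul_ne_zero (Nat.cast_ne_zero.2 hl.out.ne_zero) (Int.cast_ne_zero.2 hu)
    · exact_mod_cast hm
  have h := Ideal.isCoprime_iff_sup_eq.2 htop
  have h1 := Ideal.isCoprime_iff_sup_eq.1 h.of_mul_right_left
  have h2 : (l : 𝓞 K) * (u : 𝓞 K) ∉ v.asIdeal := fun e => v.isPrime.ne_top (by
    rwa [sup_eq_left.2 ((Ideal.span_singleton_le_iff_mem _).2 e)] at h1)
  exact ⟨fun e => h2 (Ideal.mul_mem_right _ _ e), fun e => h2 (Ideal.mul_mem_left _ _ e),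
    (coprime_absNorm_iff hm v.ne_bot).2 (Ideal.isCoprime_iff_sup_eq.1 h.of_mul_right_right)⟩

theorem signChar_prime {u d : ℤ} {v : HeightOneSpectrum (𝓞 K)} (hv : IsGood l u d v) :
    signChar K d v.asIdeal = (jacobiSym d (absNorm v.asIdeal) : ℂ) := by
  rw [signChar_apply, if_pos hv.2.2]

theorem norm_angleVal (hl2 : l ≠ 2) (φ : K →+* ℂ) {u d : ℤ} {v : HeightOneSpectrum (𝓞 K)}
    (hv : IsGood l u d v) {t : ℕ} (ht : ¬ l ∣ t) (ht2 : ¬ l ∣ t + t) :
    ‖angleVal φ l u d v t‖ = 1 := by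
  obtain ⟨hlv, huv, hcop⟩ := hv
  have h1 := norm_sq_twistValue (φ := φ) hl2 ht ht ht2 hlv huv
    (fun e => v.isPrime.ne_top ((Ideal.eq_top_iff_one _).2 e))
  have hgcd : d.gcd (absNorm v.asIdeal) = 1 := by
    rw [Int.gcd_def, Int.natAbs_natCast]
    exact Nat.Coprime.coprime_mul_left hcop
  have h2 : ‖((jacobiSym d (absNorm v.asIdeal) : ℤ) : ℂ)‖ = 1 := by
    rcases jacobiSym.eq_one_or_neg_one hgcd with e | e <;> simp [e]
  rw [angleVal, norm_div, norm_mul, h2, one_mul, Complex.norm_real,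
    Real.norm_of_nonneg (Real.sqrt_nonneg _), ← h1, Real.sqrt_sq (norm_nonneg _), div_self]
  intro h0
  rw [h0, zero_pow two_ne_zero, eq_comm, Nat.cast_eq_zero, absNorm_eq_zero_iff] at h1
  exact v.ne_bot h1

theorem conj_angleVal (φ : K →+* ℂ) (u d : ℤ) (v : HeightOneSpectrum (𝓞 K)) {t : ℕ} (ht0 : 0 < t)
    (htl : t < l) : conj (angleVal φ l u d v t) = angleVal φ l u d v (l - t) := by
  rw [angleVal, angleVal, map_div₀, map_mul, Complex.conj_ofReal, map_intCast]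
  congr 2
  have hcast : ∀ (x y z : 𝓞 K), φ ((x * y * z : 𝓞 K) : K) = φ (x : K) * φ (y : K) * φ (z : K) :=
    fun x y z => by rw [← map_mul φ, ← map_mul φ]; rfl
  rw [twistValue, twistValue, hcast, hcast, map_mul, map_mul, conj_pow_symbol htl ht0,
    conj_pow_symbol htl ht0, conj_jacobiPrime ht0 htl ht0 htl v.ne_bot]

/-- **The monomial at a good prime.** -/
theorem monomialChar_normalised (hl2 : l ≠ 2) (φ : K →+* ℂ) {u d : ℤ} (e : Fin (l / 2) → ℤ)
    {v : HeightOneSpectrum (𝓞 K)} (hv : IsGood l u d v) :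
    monomialChar φ l u d e v.asIdeal *
        ((absNorm v.asIdeal : ℕ) : ℂ) ^ (-(((weight e : ℤ) : ℂ) / 2)) =
      ∏ i, angleVal φ l u d v (tIdx i) ^ e i := by
  set N : ℕ := absNorm v.asIdeal with hN
  set r : ℂ := (Real.sqrt (N : ℝ) : ℂ) with hr
  set J : ℂ := (jacobiSym d N : ℂ) with hJ
  have hs : ((N : ℂ)) ^ (-(((weight e : ℤ) : ℂ) / 2)) = (r ^ weight e)⁻¹ := by
    rw [Complex.cpow_neg, hr, Real.sqrt_eq_rpow, Complex.ofReal_cpow (Nat.cast_nonneg _),
      ← Complex.cpow_nat_mul]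
    congr 2
    push_cast; ring
  rw [hs, monomialChar_apply, signChar_prime hv, ← hJ]
  have h1 : ∀ i, angleVal φ l u d v (tIdx i) ^ e i =
      angleVal φ l u d v (tIdx i) ^ (e i).toNat *
        angleVal φ l u d v (l - tIdx i) ^ (-e i).toNat := fun i => by
    obtain ⟨h0, ht, h1, h2, -, -⟩ := tIdx_spec hl2 i
    have hn := norm_angleVal hl2 φ hv h1 h2
    rw [← conj_angleVal φ u d v h0 ht, ← Complex.inv_eq_conj hn, inv_pow, ← zpow_natCast,
      ← zpow_natCast, ← zpow_neg, ← zpow_add₀ (norm_ne_zero_iff.1 (by rw [hn]; exact one_ne_zero)),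
      ← sub_eq_add_neg, Int.toNat_sub_toNat_neg]
  have h2 : weight e = ∑ i, ((e i).toNat + (-e i).toNat) :=
    Finset.sum_congr rfl fun i _ => by omega
  rw [Finset.prod_congr rfl fun i _ => h1 i, h2, ← Finset.prod_pow_eq_pow_sum,
    ← Finset.prod_pow_eq_pow_sum, ← Finset.prod_mul_distrib, ← Finset.prod_inv_distrib,
    ← Finset.prod_mul_distrib]
  refine Finset.prod_congr rfl fun i _ => ?_
  rw [twistChar_apply_prime hl2 hv.1, twistChar_apply_prime hl2 hv.1, angleVal, angleVal, ← hN,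
    ← hr, ← hJ, div_pow, div_pow, mul_pow, mul_pow, pow_add, pow_add]
  ring

/-- **The monomials in the angles have mean zero.** -/
theorem hasMean_monomial (hl2 : l ≠ 2) (φ : K →+* ℂ) {u d : ℤ} (hu : u ≠ 0) (hd : d ≠ 0)
    {e : Fin (l / 2) → ℤ} (he : e ≠ 0) :
    HasMean (fun v : HeightOneSpectrum (𝓞 K) => monomialChar φ l u d e v.asIdeal *
      ((absNorm v.asIdeal : ℕ) : ℂ) ^ (-(((weight e : ℤ) : ℂ) / 2))) 0 := by
  obtain ⟨𝔪, h⟩ := exists_isAlgChar_monomial hl2 φ hu hd he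
  exact h.hasMean_zero (monomialType_pure hl2 φ e)
    (not_isNormPower_of_type h (monomialType_pure hl2 φ e) (monomialType_not_symm hl2 φ he))

theorem norm_monomialChar_le (hl2 : l ≠ 2) (φ : K →+* ℂ) {u d : ℤ} (hu : u ≠ 0) (hd : d ≠ 0)
    {e : Fin (l / 2) → ℤ} (he : e ≠ 0) (v : HeightOneSpectrum (𝓞 K)) :
    ‖monomialChar φ l u d e v.asIdeal *
      ((absNorm v.asIdeal : ℕ) : ℂ) ^ (-(((weight e : ℤ) : ℂ) / 2))‖ ≤ 1 := by
  obtain ⟨𝔪, h⟩ := exists_isAlgChar_monomial hl2 φ hu hd he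
  exact (h.torus (monomialType_pure hl2 φ e)).norm_le v.ne_bot

end FA.JacobiST

end
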