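import Fermat.Agent.Root.SummaryCyclotomicUnits

/-!
# The half interval type is not degenerate

For an odd prime `l` and an odd character `χ` the sum of `χ` over `1, …, (l - 1) / 2` is a nonzero
multiple of `B_{1,χ}`, as `χ 2 ≠ 2`. Hence no nonzero combination of the dilates of the sign of the
half interval vanishes.
-/

set_option autoImplicit false

noncomputable section

open Finset
open scoped Classical

namespace FA.JacobiST

variable {l : ℕ} [hl : Fact l.Prime]

/-- `1` on the first half of the residues, `-1` on the second. -/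
def halfSign (x : ZMod l) : ℤ := if 2 * x.val < l then 1 else -1

theorem two_val_ne (hl2 : l ≠ 2) (x : ZMod l) : 2 * x.val ≠ l := by
  rintro e
  exact hl2 ((Nat.prime_dvd_prime_iff_eq Nat.prime_two hl.out).1 ⟨_, e.symm⟩).symm

theorem halfSign_neg (hl2 : l ≠ 2) {x : ZMod l} (hx : x ≠ 0) : halfSign (-x) = -halfSign x := by
  have h1 := ZMod.val_lt x
  have h2 := two_val_ne hl2 x
  rw [halfSign, halfSign, ZMod.neg_val, if_neg hx]
  split_ifs <;> omega

theorem two_ne_zero_zmod (hl2 : l ≠ 2) : (2 : ZMod l) ≠ 0 := by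
  intro e
  rw [show (2 : ZMod l) = ((2 : ℕ) : ZMod l) by norm_num, ZMod.natCast_eq_zero_iff] at e
  exact hl2 ((Nat.prime_dvd_prime_iff_eq hl.out Nat.prime_two).1 e)

theorem val_two_mul (x : ZMod l) :
    ((2 * x).val : ℂ) = 2 * (x.val : ℂ) - (l : ℂ) * (1 - (halfSign x : ℂ)) / 2 := by
  have h1 := ZMod.val_lt x
  have e : (2 * x).val = 2 * x.val % l := by
    rw [show (2 * x : ZMod l) = ((2 * x.val : ℕ) : ZMod l) by simp, ZMod.val_natCast]
  rw [e, halfSign]
  split_ifs with h
  · rw [Nat.mod_eq_of_lt h]; push_cast; ring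
  · rw [Nat.mod_eq_sub_mod (by omega), Nat.mod_eq_of_lt (by omega), Nat.cast_sub (by omega)]
    push_cast; ring

/-- **`∑ χ` over the half interval does not vanish.** -/
theorem sum_halfSign_ne_zero (hl2 : l ≠ 2) {χ : DirichletCharacter ℂ l} (hχ : χ.Odd) :
    ∑ x : ZMod l, χ x * (halfSign x : ℂ) ≠ 0 := by
  intro hD
  have hne : χ ≠ 1 := fun e => by
    have h' : χ (-1) = -1 := hχ
    rw [e, MulChar.one_apply isUnit_one.neg] at h'
    norm_num at h'
  have h2 := two_ne_zero_zmod (l := l) hl2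
  set B := ∑ x : ZMod l, χ x * (x.val : ℂ) with hB
  have h3 : ∑ x : ZMod l, χ x * ((2 * x).val : ℂ) = 2 * B := by
    rw [Finset.sum_congr rfl fun x _ => show χ x * ((2 * x).val : ℂ) =
      2 * (χ x * (x.val : ℂ)) - (l : ℂ) / 2 * χ x + (l : ℂ) / 2 * (χ x * (halfSign x : ℂ)) by
        rw [val_two_mul]; ring]
    rw [sum_add_distrib, sum_sub_distrib, ← mul_sum, ← mul_sum, ← mul_sum,
      MulChar.sum_eq_zero_of_ne_one hne, hD, ← hB]
    ring
  have h4 : χ 2 * ∑ x : ZMod l, χ x * ((2 * x).val : ℂ) = B := by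
    rw [mul_sum]
    exact Fintype.sum_equiv (Equiv.mulLeft₀ (2 : ZMod l) h2) _ _ fun x => by
      show χ 2 * (χ x * ((2 * x).val : ℂ)) = χ (2 * x) * ((2 * x).val : ℂ)
      rw [map_mul, mul_assoc]
  rw [h3] at h4
  have h5 : (2 * χ 2 - 1) * B = 0 := by linear_combination h4
  rcases mul_eq_zero.1 h5 with e | e
  · have := χ.unit_norm_eq_one (Units.mk0 (2 : ZMod l) h2)
    rw [Units.val_mk0, show χ 2 = 1 / 2 by linear_combination e / 2] at this
    norm_num at this
  · exact FA.Summary.bernoulli_sum_ne_zero l hχ e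

/-- **No odd combination of the dilates of the sign vanishes.** -/
theorem eq_zero_of_balanced (hl2 : l ≠ 2) {d : ZMod l → ℤ} (h0 : d 0 = 0)
    (hd : ∀ x, d (-x) = -d x) (h : ∀ s : ZMod l, s ≠ 0 → ∑ x, d x * halfSign (x * s) = 0)
    (a : ZMod l) : d a = 0 := by
  rcases eq_or_ne a 0 with rfl | ha
  · exact h0
  have key : ∀ χ : DirichletCharacter ℂ l, ∑ x, (d x : ℂ) * χ x⁻¹ = 0 := fun χ => by
    rcases χ.even_or_odd with hχ | hχ
    · have e : ∑ x, (d x : ℂ) * χ x⁻¹ = -∑ x, (d x : ℂ) * χ x⁻¹ := by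
        conv_lhs => rw [← Equiv.sum_comp (Equiv.neg (ZMod l))]
        rw [← Finset.sum_neg_distrib]
        refine sum_congr rfl fun x _ => ?_
        rw [Equiv.neg_apply, hd, inv_neg, hχ.eval_neg, Int.cast_neg, neg_mul]
      linear_combination e / 2
    · have e : (∑ x, (d x : ℂ) * χ x⁻¹) * ∑ y : ZMod l, χ y * (halfSign y : ℂ) =
          ∑ s : ZMod l, χ s * ((∑ x, d x * halfSign (x * s) : ℤ) : ℂ) := by
        rw [sum_mul]
        simp only [Int.cast_sum, Int.cast_mul, mul_sum]
        conv_rhs => rw [sum_comm]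
        refine sum_congr rfl fun x _ => ?_
        rcases eq_or_ne x 0 with rfl | hx
        · simp [h0]
        exact Fintype.sum_equiv (Equiv.mulLeft₀ x⁻¹ (inv_ne_zero hx)) _ _ fun y => by
          show _ = χ (x⁻¹ * y) * ((d x : ℂ) * (halfSign (x * (x⁻¹ * y)) : ℂ))
          rw [map_mul, mul_inv_cancel_left₀ hx]
          ring
      have h6 : ∑ s : ZMod l, χ s * ((∑ x, d x * halfSign (x * s) : ℤ) : ℂ) = 0 :=
        sum_eq_zero fun s _ => by
          rcases eq_or_ne s 0 with rfl | hs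
          · rw [MulChar.map_zero, zero_mul]
          · rw [h s hs, Int.cast_zero, mul_zero]
      rw [h6] at e
      exact (mul_eq_zero.1 e).resolve_right (sum_halfSign_ne_zero hl2 hχ)
  have : NeZero l := ⟨hl.out.ne_zero⟩
  have h7 : ∑ χ : DirichletCharacter ℂ l, χ a * ∑ x, (d x : ℂ) * χ x⁻¹ = 0 := by simp [key]
  simp only [mul_sum] at h7
  rw [sum_comm, Finset.sum_eq_single a (fun x _ hx => ?_) (by simp)] at h7
  · rw [Finset.sum_congr rfl fun χ _ => show χ a * ((d a : ℂ) * χ a⁻¹) = (d a : ℂ) * (χ a⁻¹ * χ a) by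
      ring, ← mul_sum, DirichletCharacter.sum_char_inv_mul_char_eq ℂ ha.isUnit, if_pos rfl] at h7
    have hφ : ((Nat.totient l : ℕ) : ℂ) ≠ 0 :=
      Nat.cast_ne_zero.2 (Nat.totient_pos.2 hl.out.pos).ne'
    exact_mod_cast (mul_eq_zero.1 h7).resolve_right hφ
  · rcases eq_or_ne x 0 with rfl | hx0
    · simp [h0]
    rw [Finset.sum_congr rfl fun χ _ => show χ a * ((d x : ℂ) * χ x⁻¹) = (d x : ℂ) * (χ x⁻¹ * χ a) by
      ring, ← mul_sum, DirichletCharacter.sum_char_inv_mul_char_eq ℂ hx0.isUnit, if_neg hx, mul_zero]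

/-- **The conjugates of the half interval type are independent.** -/
theorem eq_zero_of_halfSign (hl2 : l ≠ 2) {E : Fin (l / 2) → ℤ}
    (h : ∀ s : ZMod l, s ≠ 0 → ∑ i, E i * halfSign ((((i : ℕ) + 1 : ℕ) : ZMod l) * s) = 0)
    (i : Fin (l / 2)) : E i = 0 := by
  set t : Fin (l / 2) → ZMod l := fun i => ((((i : ℕ) + 1 : ℕ)) : ZMod l) with ht
  have hval : ∀ i, (t i).val = (i : ℕ) + 1 := fun i => by
    rw [ht]; exact ZMod.val_natCast_of_lt (by have := i.isLt; have := hl.out.two_le; omega)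
  have hinj : Function.Injective t := fun i j e => Fin.ext (by have := congrArg ZMod.val e; rw [hval, hval] at this; omega)
  have hneg : ∀ i j, t i ≠ -t j := fun i j e => by
    have := i.isLt
    have := j.isLt
    have := congrArg ZMod.val e
    rw [hval, ZMod.neg_val, if_neg (fun e0 : t j = 0 => by have := hval j; rw [e0, ZMod.val_zero] at this; omega),
      hval] at this
    have := Nat.odd_iff.1 (hl.out.odd_of_ne_two hl2)
    omega
  let d : ZMod l → ℤ := fun x => (∑ j, if t j = x then E j else 0) - ∑ j, if -t j = x then E j else 0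
  have h1 : ∀ (F : ZMod l → ℤ), ∑ x, d x * F x = ∑ j, E j * F (t j) - ∑ j, E j * F (-t j) := fun F => by
    simp only [d, sub_mul, sum_sub_distrib, sum_mul, ite_mul, zero_mul]
    rw [sum_comm, sum_comm (f := fun x j => if -t j = x then E j * F x else 0)]
    simp
  have hzero : ∀ j, t j ≠ 0 := fun j e => by
    have := hval j; rw [e, ZMod.val_zero] at this; omega
  have h0 : d 0 = 0 := by simp [d, hzero]
  have hd : ∀ x, d (-x) = -d x := fun x => by
    simp only [d, neg_eq_iff_eq_neg]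
    simp only [neg_neg, neg_sub]
  have h2 := eq_zero_of_balanced hl2 h0 hd (fun s hs => by
    rw [h1 fun x => halfSign (x * s), h s hs, zero_sub, neg_eq_zero]
    rw [Finset.sum_congr rfl fun j _ => show E j * halfSign (-t j * s) = -(E j * halfSign (t j * s)) by
      rw [neg_mul, halfSign_neg hl2 (mul_ne_zero (hzero j) hs), mul_neg], sum_neg_distrib, h s hs,
      neg_zero]) (t i)
  simpa [d, hinj.eq_iff, (fun j => (hneg i j).symm : ∀ j, -t j ≠ t i)] using h2

end FA.JacobiST

end
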