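import Fermat.Agent.JacobiSatoTate.Torus
import Fermat.Agent.PowerReciprocity.FermatPoints
import Fermat.Agent.FermatHasseWeilQ.Local
import Mathlib.NumberTheory.LegendreSymbol.QuadraticChar.Basic

/-!
# The points of `y² = x ^ n + c`

Over a field with `q` elements, `q` odd, and for odd `n` there are `q + ρ (c) ∑ χ (4 c) J (χ, χ)`
affine points, `ρ` the quadratic character, `χ` the nontrivial characters killed by `n`. So for a
prime `l` the trace at a prime `p ≡ 1` modulo `l` is the sum of the angle values and their conjugates.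
-/

set_option autoImplicit false
set_option linter.unusedSectionVars false

noncomputable section

open NumberField IsDedekindDomain Finset
open FA.PowerReciprocity FA.GaussValuation FA.FermatHW FA.FermatTwist
open scoped Classical

namespace FA.JacobiST

universe u w

/-! ### Finite fields -/

section field

variable {F : Type w} [Field F] [Fintype F]

/-- The affine points of `y² = x ^ n + c`. -/
def hyperCount (F : Type w) [Field F] (n : ℕ) (c : ℤ) : ℕ :=
  Nat.card {z : F × F // z.2 ^ 2 = z.1 ^ n + (c : F)}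

theorem hyperCount_congr {E : Type u} [Field E] (e : F ≃+* E) (n : ℕ) (c : ℤ) :
    hyperCount F n c = hyperCount E n c :=
  Nat.card_congr (Equiv.subtypeEquiv (Equiv.prodCongr e.toEquiv e.toEquiv) fun z => by
    show _ ↔ e z.2 ^ 2 = e z.1 ^ n + (c : E)
    rw [← map_pow, ← map_pow, ← map_intCast e c, ← map_add, e.injective.eq_iff])

theorem quadraticChar_congr {E : Type u} [Field E] [Fintype E] (e : F ≃+* E) (x : F) :
    quadraticChar E (e x) = quadraticChar F x := by
  simp only [quadraticChar_apply, quadraticCharFun, map_eq_zero_iff e e.injective]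
  by_cases h0 : x = 0
  · rw [if_pos h0, if_pos h0]
  rw [if_neg h0, if_neg h0]
  by_cases h : IsSquare x
  · rw [if_pos h, if_pos (h.map e)]
  · rw [if_neg h, if_neg fun h' => h (by simpa using h'.map e.symm)]

theorem jacobiSum_quadratic (hF : ringChar F ≠ 2) {χ : MulChar F ℂ} (hχ : χ ≠ 1) :
    ∑ t : F, χ t * (quadraticChar F (1 - t) : ℂ) = χ 4 * jacobiSum χ χ := by
  have h2 : (2 : F) ≠ 0 := Ring.two_ne_zero hF
  have h4 : (4 : F) ≠ 0 := by
    rw [show (4 : F) = 2 * 2 by norm_num]; exact mul_ne_zero h2 h2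
  have hfib : jacobiSum χ χ = ∑ t : F, χ t * ((quadraticChar F (1 - 4 * t) : ℂ) + 1) := by
    rw [jacobiSum, Finset.sum_congr rfl fun x _ => (map_mul χ x (1 - x)).symm,
      ← Finset.sum_fiberwise Finset.univ (fun x => x * (1 - x))]
    refine Finset.sum_congr rfl fun t _ => ?_
    rw [Finset.sum_congr rfl fun x hx => congrArg χ (Finset.mem_filter.mp hx).2, Finset.sum_const,
      nsmul_eq_mul, mul_comm]
    congr 1
    suffices e : ((Finset.univ.filter fun x : F => x * (1 - x) = t).card : ℤ) =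
        quadraticChar F (1 - 4 * t) + 1 by exact_mod_cast e
    rw [← quadraticChar_card_sqrts hF, Nat.cast_inj]
    refine Finset.card_bij' (fun x _ => 2 * x - 1) (fun y _ => (y + 1) / 2) (fun x hx => ?_)
      (fun y hy => ?_) (fun x _ => by field_simp; ring) fun y _ => by field_simp; ring
    · simp only [Finset.mem_filter, Finset.mem_univ, true_and] at hx
      simp only [Set.mem_toFinset, Set.mem_ofPred_eq]
      linear_combination -4 * hx
    · simp only [Set.mem_toFinset, Set.mem_ofPred_eq] at hy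
      simp only [Finset.mem_filter, Finset.mem_univ, true_and]
      field_simp
      linear_combination -hy
  rw [hfib]
  simp only [mul_add, mul_one, Finset.sum_add_distrib, MulChar.sum_eq_zero_of_ne_one hχ, add_zero]
  rw [Finset.mul_sum]
  refine (Fintype.sum_equiv (Equiv.mulLeft₀ 4 h4) _ _ fun t => ?_).symm
  rw [show Equiv.mulLeft₀ (4 : F) h4 t = 4 * t from rfl, map_mul, mul_assoc]

/-- **The points.** -/
theorem hyperCount_eq (hF : ringChar F ≠ 2) {n : ℕ} (hn : Odd n) {c : ℤ} (hc : (c : F) ≠ 0) :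
    (hyperCount F n c : ℂ) = (Fintype.card F : ℂ) + (quadraticChar F (c : F) : ℂ) *
      ∑ χ ∈ (FA.FermatCount.killed F n).erase 1, χ (4 * (c : F)) * jacobiSum χ χ := by
  have hn0 : 0 < n := hn.pos
  set S := (FA.FermatCount.killed F n).erase 1 with hS
  have h1 : (hyperCount F n c : ℂ) =
      ∑ x : F, ((quadraticChar F (x ^ n + (c : F)) : ℂ) + 1) := by
    rw [hyperCount, Nat.card_congr (Equiv.subtypeProdEquivSigmaSubtype
      fun x y : F => y ^ 2 = x ^ n + (c : F)), Nat.card_sigma, Nat.cast_sum]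
    refine Finset.sum_congr rfl fun x _ => ?_
    have e := quadraticChar_card_sqrts hF (x ^ n + (c : F))
    rw [Set.toFinset_card, ← Nat.card_eq_fintype_card] at e
    exact_mod_cast e
  have h2 : ∀ u : F, ((univ.filter fun x : F => x ^ n = u).card : ℂ) = ∑ χ ∈ S, χ u + 1 := fun u => by
    rcases eq_or_ne u 0 with rfl | hu
    · rw [show (univ.filter fun x : F => x ^ n = 0) = {0} by
          ext x; simp [pow_eq_zero_iff hn0.ne'], card_singleton, Nat.cast_one,
        sum_eq_zero fun χ _ => MulChar.map_zero χ, zero_add]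
    · have h := FA.FermatCount.card_roots_eq_sum hn0 hu
      rw [← Finset.sum_erase_add _ _ FA.FermatCount.one_mem_killed,
        MulChar.one_apply (isUnit_iff_ne_zero.2 hu)] at h
      exact h
  have h3 : ∑ x : F, (quadraticChar F (x ^ n + (c : F)) : ℂ) =
      ∑ u : F, (∑ χ ∈ S, χ u + 1) * (quadraticChar F (u + (c : F)) : ℂ) := by
    rw [← Finset.sum_fiberwise Finset.univ (fun x : F => x ^ n)]
    refine sum_congr rfl fun u _ => ?_
    rw [sum_congr rfl fun x hx => by rw [(mem_filter.1 hx).2], sum_const, nsmul_eq_mul, h2]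
  have h4 : ∑ u : F, (quadraticChar F (u + (c : F)) : ℂ) = 0 := by
    refine (Fintype.sum_equiv (Equiv.addRight (c : F)) _ (fun u => (quadraticChar F u : ℂ))
      fun _ => rfl).trans ?_
    rw [← Int.cast_sum, quadraticChar_sum_zero hF, Int.cast_zero]
  rw [h1, sum_add_distrib, h3, sum_const, card_univ, nsmul_one, add_comm]
  congr 1
  simp only [add_mul, one_mul, sum_add_distrib, h4, add_zero, sum_mul]
  rw [sum_comm, mul_sum]
  refine sum_congr rfl fun χ hχ => ?_
  obtain ⟨hne, hk⟩ := mem_erase.1 hχ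
  rw [FA.FermatCount.mem_killed] at hk
  have hm : χ (-1 : F) = 1 := by
    have h5 : χ (-1 : F) ^ n = 1 := by
      rw [← MulChar.pow_apply' _ hn0.ne', hk, MulChar.one_apply isUnit_one.neg]
    have h6 : χ (-1 : F) ^ 2 = 1 := by rw [← map_pow, neg_one_sq, map_one]
    obtain ⟨k, rfl⟩ := hn
    rwa [pow_succ, pow_mul, h6, one_pow, one_mul] at h5
  rw [map_mul χ, mul_right_comm (χ 4), ← jacobiSum_quadratic hF hne, sum_mul, mul_sum]
  refine (Fintype.sum_equiv (Equiv.mulLeft₀ (-(c : F)) (neg_ne_zero.2 hc)) _ _ fun t => ?_).symm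
  show _ = χ (-(c : F) * t) * (quadraticChar F (-(c : F) * t + (c : F)) : ℂ)
  rw [show -(c : F) * t + (c : F) = (c : F) * (1 - t) by ring,
    show -(c : F) * t = -1 * (c : F) * t by ring, map_mul (quadraticChar F), map_mul χ, map_mul χ, hm]
  push_cast
  ring

end field

/-! ### The primes -/

/-- The trace `(p - #) / √p`. -/
def hyperTrace (l : ℕ) (c : ℤ) (p : ℕ) [Fact p.Prime] : ℝ :=
  ((p : ℝ) - hyperCount (ZMod p) l c) / Real.sqrt p

/-- With `0` at the numbers that are not prime. -/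
def normTrace (l : ℕ) (c : ℤ) (p : ℕ) : ℝ :=
  if h : p.Prime then (have := Fact.mk h; hyperTrace l c p) else 0

variable {l : ℕ} [hl : Fact l.Prime]

theorem hyperCount_zmod_of_ne_one (p : ℕ) [hp : Fact p.Prime] (hp1 : p % l ≠ 1)
    (c : ℤ) : hyperCount (ZMod p) l c = p := by
  by_cases hp2 : p = 2
  · subst hp2
    rw [hyperCount, Nat.card_congr (Equiv.subtypeEquiv (Equiv.refl (ZMod 2 × ZMod 2))
      (q := fun z => z.2 = z.1 ^ l + (c : ZMod 2)) fun z => by
        show _ ↔ z.2 = _
        rw [ZMod.pow_card z.2]; rfl),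
      Nat.card_congr (Equiv.subtypeProdEquivSigmaSubtype
        fun x y : ZMod 2 => y = x ^ l + (c : ZMod 2)), Nat.card_sigma]
    simp
  have hgcd : Nat.gcd l (p - 1) = 1 := hl.out.coprime_iff_not_dvd.2 fun e => hp1 (by
    obtain ⟨k, hk⟩ := e
    rw [show p = l * k + 1 by have := hp.out.pos; omega, Nat.mul_add_mod,
      Nat.mod_eq_of_lt hl.out.one_lt])
  have hbij : Function.Bijective fun x : ZMod p => x ^ l := by
    refine Finite.injective_iff_bijective.1 fun x y (e : x ^ l = y ^ l) => ?_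
    rcases eq_or_ne y 0 with rfl | hy
    · rw [zero_pow hl.out.ne_zero] at e
      exact eq_zero_of_pow_eq_zero e
    have h1 : (x / y) ^ l = 1 := by rw [div_pow, e, div_self (pow_ne_zero _ hy)]
    have hx0 : x / y ≠ 0 := fun e0 => by rw [e0, zero_pow hl.out.ne_zero] at h1; exact zero_ne_one h1
    have h2 := Nat.dvd_gcd (orderOf_dvd_of_pow_eq_one h1)
      (orderOf_dvd_of_pow_eq_one (ZMod.pow_card_sub_one_eq_one hx0))
    rw [hgcd, Nat.dvd_one, orderOf_eq_one_iff, div_eq_one_iff_eq hy] at h2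
    exact h2
  have hF : ringChar (ZMod p) ≠ 2 := by rwa [ZMod.ringChar_zmod_n]
  have h1 : ∑ x : ZMod p, (quadraticChar (ZMod p) (x ^ l + (c : ZMod p)) : ℤ) = 0 := by
    exact (Fintype.sum_equiv ((Equiv.ofBijective _ hbij).trans (Equiv.addRight (c : ZMod p))) _
      (fun u => quadraticChar (ZMod p) u) fun _ => rfl).trans (quadraticChar_sum_zero hF)
  rw [hyperCount, Nat.card_congr (Equiv.subtypeProdEquivSigmaSubtype
    fun x y : ZMod p => y ^ 2 = x ^ l + (c : ZMod p)), Nat.card_sigma]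
  have h2 : ∀ x : ZMod p, ((Nat.card {y : ZMod p // y ^ 2 = x ^ l + (c : ZMod p)} : ℕ) : ℤ) =
      quadraticChar (ZMod p) (x ^ l + (c : ZMod p)) + 1 := fun x => by
    have e := quadraticChar_card_sqrts hF (x ^ l + (c : ZMod p))
    rw [Set.toFinset_card, ← Nat.card_eq_fintype_card] at e
    exact e
  refine Int.natCast_inj.1 ?_
  rw [Nat.cast_sum, Finset.sum_congr rfl fun x _ => h2 x, sum_add_distrib, h1, sum_const, card_univ,
    ZMod.card, nsmul_one, zero_add]

theorem normTrace_eq_zero (c : ℤ) {p : ℕ} (hp1 : p % l ≠ 1) :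
    normTrace l c p = 0 := by
  rw [normTrace]
  split_ifs with h
  · have := Fact.mk h
    rw [hyperTrace, hyperCount_zmod_of_ne_one p hp1, sub_self, zero_div]
  · rfl

variable {K : Type u} [Field K] [NumberField K] [IsCyclotomicExtension {l} ℚ K]

/-- **The trace at a prime of degree one.** -/
theorem normTrace_eq_angles (hl2 : l ≠ 2) (φ : K →+* ℂ) {c : ℤ}
    {v : HeightOneSpectrum (𝓞 K)} (hv : IsGood l (4 * c) c v)
    (hp : (Ideal.absNorm v.asIdeal).Prime) :
    (normTrace l c (Ideal.absNorm v.asIdeal) : ℂ) =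
      ∑ k ∈ Finset.Icc 1 (l - 1), angleVal φ l (4 * c) c v k := by
  have := v.isMaximal
  set p := Ideal.absNorm v.asIdeal with hpdef
  have := Fact.mk hp
  have : Finite (𝓞 K ⧸ v.asIdeal) := Ideal.finiteQuotientOfFreeOfNeBot _ v.ne_bot
  let := Fintype.ofFinite (𝓞 K ⧸ v.asIdeal)
  let := Ideal.Quotient.field v.asIdeal
  obtain ⟨hlv, huv, hcop⟩ := hv
  have hcard : Fintype.card (𝓞 K ⧸ v.asIdeal) = p := card_quotient
  have : CharP (𝓞 K ⧸ v.asIdeal) p := charP_of_card_eq_prime hcard
  let e := ZMod.ringEquiv (𝓞 K ⧸ v.asIdeal) hcard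
  have hp2 : p ≠ 2 := fun e2 => by
    have := Nat.Coprime.coprime_mul_right hcop
    rw [← hpdef, e2] at this
    norm_num at this
  have hcP : (c : 𝓞 K) ∉ v.asIdeal := fun e => huv (by
    rw [Int.cast_mul]; exact Ideal.mul_mem_left _ _ e)
  have hcne : (c : 𝓞 K ⧸ v.asIdeal) ≠ 0 := fun e => hcP (by
    rwa [← Ideal.Quotient.eq_zero_iff_mem, map_intCast])
  have hF : ringChar (𝓞 K ⧸ v.asIdeal) ≠ 2 := by rwa [ringChar.eq _ p]
  obtain ⟨χ, hχ⟩ := exists_symbolChar hl2 hlv
  set g := φ.comp (algebraMap (𝓞 K) K)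
  have hinj : Function.Injective g := φ.injective.comp RingOfIntegers.coe_injective
  have hnd : ∀ k ∈ Icc 1 (l - 1), ¬ l ∣ k := fun k hk e => by
    rw [mem_Icc] at hk
    have := Nat.le_of_dvd (by omega) e
    omega
  have hχl := char_pow_card hlv hχ
  have hord : orderOf χ = l := orderOf_eq_prime hχl (by
    simpa using char_pow_ne_one hlv hχ (k := 1) fun e => hl.out.ne_one (Nat.dvd_one.mp e))
  set Φ : ℕ → MulChar (𝓞 K ⧸ v.asIdeal) ℂ := fun a => (χ ^ a).ringHomComp g
  have hΦ : Set.InjOn Φ (Icc 1 (l - 1) : Finset ℕ) := fun a ha b hb e => by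
    rw [mem_coe, mem_Icc] at ha hb
    exact pow_injOn_Iio_orderOf (x := χ) (show a < orderOf χ by omega) (show b < orderOf χ by omega)
      (MulChar.injective_ringHomComp hinj e)
  have hS : (FA.FermatCount.killed (𝓞 K ⧸ v.asIdeal) l).erase 1 = (Icc 1 (l - 1)).image Φ := by
    refine (Finset.eq_of_subset_of_card_le (fun ψ hψ => ?_) ?_).symm
    · obtain ⟨a, ha, rfl⟩ := mem_image.mp hψ
      refine mem_erase.mpr ⟨(MulChar.ringHomComp_ne_one_iff hinj).mpr
        (char_pow_ne_one hlv hχ (hnd a ha)), FA.FermatCount.mem_killed.mpr ?_⟩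
      rw [MulChar.ringHomComp_pow, ← pow_mul, mul_comm, pow_mul, hχl, one_pow,
        MulChar.ringHomComp_one]
    · rw [card_image_of_injOn hΦ, card_erase_of_mem FA.FermatCount.one_mem_killed,
        FA.FermatCount.card_killed, Nat.gcd_eq_left (by
          rw [card_quotient]; exact dvd_absNorm_sub_one hlv)]
      simp
  have hρ : (quadraticChar (𝓞 K ⧸ v.asIdeal) (c : 𝓞 K ⧸ v.asIdeal) : ℂ) = (jacobiSym c p : ℂ) := by
    have hq := quadraticChar_congr e (c : ZMod p)
    rw [map_intCast] at hq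
    rw [← jacobiSym.legendreSym.to_jacobiSym, legendreSym, hq]
    congr!
  have h := hyperCount_eq hF (hl.out.odd_of_ne_two hl2) hcne
  rw [hS, sum_image hΦ, hρ, hcard, ← hyperCount_congr e] at h
  have hterm : ∀ k ∈ Icc 1 (l - 1),
      Φ k (4 * (c : 𝓞 K ⧸ v.asIdeal)) * jacobiSum (Φ k) (Φ k) =
        -φ (twistValue l ((4 * c : ℤ) : 𝓞 K) 1 k k v.asIdeal : K) := fun k hk => by
    have hk0 : k ≠ 0 := by rw [mem_Icc] at hk; omega
    show (χ ^ k).ringHomComp g _ * _ = -g (twistValue l _ 1 k k v.asIdeal)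
    rw [jacobiSum_ringHomComp, twistValue, symbolPrime_one hlv, one_pow, mul_one,
      MulChar.ringHomComp_apply, MulChar.pow_apply' _ hk0,
      show (4 * (c : 𝓞 K ⧸ v.asIdeal)) = Ideal.Quotient.mk v.asIdeal ((4 * c : ℤ) : 𝓞 K) by
        rw [map_intCast]; push_cast; ring, hχ, jacobiPrime_eq hχ hk0 hk0, map_mul, map_pow,
      map_neg]
    ring
  rw [sum_congr rfl hterm] at h
  rw [normTrace, dif_pos hp, hyperTrace, Complex.ofReal_div, Complex.ofReal_sub,
    Complex.ofReal_natCast, Complex.ofReal_natCast, h]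
  simp only [angleVal, ← hpdef, sum_neg_distrib, mul_neg]
  rw [← sub_eq_add_neg, sub_sub_cancel, mul_sum, sum_div]

end FA.JacobiST

end
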