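import Fermat.Agent.JacobiSatoTate.Points
import Mathlib.MeasureTheory.Constructions.Pi

/-!
# The distribution of the traces of `y² = x ^ l + c`

At the primes `p ≡ 1` modulo `l` the trace over `√p` is the sum of twice the cosines of the angles,
so its law is that of `∑ 2 cos (2 π θ i)` for independent uniform `θ i`; at the others it is `0`.
-/

set_option autoImplicit false
set_option linter.unusedSectionVars false

noncomputable section

open NumberField IsDedekindDomain MeasureTheory Filter Topology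
open FA.Hecke (HasMean hasMean_congr mem_primesLE primesLE wSum)
open FA.FermatHW (conjugates mem_conjugates_iff card_conjugates_mul exists_prime_over natCast_notMem)
open FA.PrimeEquidist
open scoped Classical Real ComplexConjugate

namespace FA.JacobiST

universe u

variable {l : ℕ} [hl : Fact l.Prime]

/-- `∑ 2 cos (2 π θ i)`. -/
def torusTrace (l : ℕ) : C(UnitAddTorus (Fin (l / 2)), ℝ) where
  toFun θ := ∑ i, 2 * (fourier 1 (θ i)).re
  continuous_toFun := continuous_finsetSum _ fun i _ => continuous_const.mul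
    (Complex.continuous_re.comp ((map_continuous _).comp (continuous_apply i)))

theorem torusTrace_apply (θ : UnitAddTorus (Fin (l / 2))) :
    torusTrace l θ = ∑ i, 2 * (fourier 1 (θ i)).re := rfl

theorem torusTrace_coe (x : Fin (l / 2) → ℝ) :
    torusTrace l (fun i => (x i : AddCircle (1 : ℝ))) = ∑ i, 2 * Real.cos (2 * π * x i) := by
  rw [torusTrace_apply]
  refine Finset.sum_congr rfl fun i _ => ?_
  rw [fourier_coe_apply, show (2 * π * Complex.I * ((1 : ℤ) : ℂ) * (x i : ℂ) / ((1 : ℝ) : ℂ) : ℂ) =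
    ((2 * π * x i : ℝ) : ℂ) * Complex.I by push_cast; ring, Complex.exp_ofReal_mul_I_re]

/-- The torus as a cube. -/
theorem integral_torus {m : ℕ} {E : Type*} [NormedAddCommGroup E] [NormedSpace ℝ E]
    (G : C(UnitAddTorus (Fin m), E)) [SecondCountableTopology E] :
    ∫ θ, G θ = ∫ x in Set.univ.pi fun _ : Fin m => Set.Ioc (0 : ℝ) 1,
      G fun i => (x i : AddCircle (1 : ℝ)) := by
  have h : MeasurePreserving (fun (x : Fin m → ℝ) i => (x i : AddCircle (1 : ℝ)))
      (Measure.pi fun _ : Fin m => (volume : Measure ℝ).restrict (Set.Ioc 0 1))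
      (Measure.pi fun _ : Fin m => (volume : Measure (AddCircle (1 : ℝ)))) :=
    measurePreserving_pi _ _ fun _ => by
      simpa using AddCircle.measurePreserving_mk (1 : ℝ) 0
  show ∫ θ, G θ ∂(Measure.pi fun _ : Fin m => (volume : Measure (AddCircle (1 : ℝ)))) = _
  rw [← h.map_eq, integral_map h.measurable.aemeasurable G.continuous.aestronglyMeasurable,
    ← Measure.restrict_pi_pi, volume_pi]

/-- Pairs `t`, `l - t`. -/
theorem sum_Icc_pairs {M : Type*} [AddCommMonoid M] (hl2 : l ≠ 2) (f : ℕ → M) :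
    ∑ k ∈ Finset.Icc 1 (l - 1), f k = ∑ i : Fin (l / 2), (f (tIdx i) + f (l - tIdx i)) := by
  have hodd := Nat.odd_iff.1 (hl.out.odd_of_ne_two hl2)
  rw [show Finset.Icc 1 (l - 1) = Finset.Ico 1 l by ext; simp; omega, Finset.sum_Ico_eq_sum_range,
    show l - 1 = l / 2 + l / 2 by omega, Finset.sum_range_add, Finset.sum_add_distrib,
    Finset.sum_range, ← Finset.sum_range_reflect (fun x => f (1 + (l / 2 + x))), Finset.sum_range]
  refine congrArg₂ (· + ·) (Finset.sum_congr rfl fun i _ => ?_) (Finset.sum_congr rfl fun i _ => ?_)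
  · rw [tIdx, add_comm]
  · have := i.isLt
    exact congrArg f (by rw [tIdx]; omega)

/-- The primes at which the trace is read off from the angles. -/
def GoodPrime (l : ℕ) (c : ℤ) (p : ℕ) : Prop := p.Prime ∧ p % l = 1 ∧ ¬ p ∣ 2 * c.natAbs

variable {K : Type u} [Field K] [NumberField K] [IsCyclotomicExtension {l} ℚ K]

theorem isGood_of_goodPrime {c : ℤ} (hc : c ≠ 0) {v : HeightOneSpectrum (𝓞 K)}
    (h : GoodPrime l c (Ideal.absNorm v.asIdeal)) : IsGood l (4 * c) c v := by
  obtain ⟨hp, hp1, hpd⟩ := h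
  set p := Ideal.absNorm v.asIdeal with hpdef
  have := Fact.mk hp
  have hcop : (4 * c.natAbs).Coprime p := (hp.coprime_iff_not_dvd.2 fun e => hpd (by
    rw [show 4 * c.natAbs = 2 * (2 * c.natAbs) by ring] at e
    exact (hp.dvd_mul.1 e).elim (fun h => dvd_mul_of_dvd_left h _) id)).symm
  refine ⟨natCast_notMem (q := p) (Ideal.absNorm_mem _) fun e => ?_, fun e => ?_, hcop⟩
  · rw [e, Nat.mod_self] at hp1; exact zero_ne_one hp1
  · have hm : 4 * c.natAbs ≠ 0 := mul_ne_zero four_ne_zero (Int.natAbs_ne_zero.2 hc)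
    have htop := (coprime_absNorm_iff hm v.ne_bot).1 hcop
    have hmem : ((4 * c.natAbs : ℕ) : 𝓞 K) ∈ v.asIdeal := by
      have e' : ((4 * c.natAbs : ℕ) : ℤ) = 4 * c ∨ ((4 * c.natAbs : ℕ) : ℤ) = -(4 * c) := by
        push_cast
        rcases abs_choice c with h | h <;> rw [h] <;> [left; right] <;> ring
      rcases e' with e' | e' <;>
        rw [show ((4 * c.natAbs : ℕ) : 𝓞 K) = (((4 * c.natAbs : ℕ) : ℤ) : 𝓞 K) by simp, e']
      · exact e
      · rw [Int.cast_neg]; exact v.asIdeal.neg_mem e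
    rw [sup_eq_left.2 ((Ideal.span_singleton_le_iff_mem _).2 hmem)] at htop
    exact v.isPrime.ne_top htop

theorem goodPrime_of_isGood {c : ℤ} {v : HeightOneSpectrum (𝓞 K)}
    (hv : IsGood l (4 * c) c v) (hp : (Ideal.absNorm v.asIdeal).Prime) :
    GoodPrime l c (Ideal.absNorm v.asIdeal) := by
  refine ⟨hp, ?_, fun e => ?_⟩
  · have := v.isMaximal
    obtain ⟨k, hk⟩ := FA.PowerReciprocity.dvd_absNorm_sub_one hv.1
    rw [show Ideal.absNorm v.asIdeal = l * k + 1 by have := hp.pos; omega, Nat.mul_add_mod,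
      Nat.mod_eq_of_lt hl.out.one_lt]
  · exact (hp.coprime_iff_not_dvd.1 hv.2.2.symm)
      (by rw [show 4 * c.natAbs = 2 * (2 * c.natAbs) by ring]; exact dvd_mul_of_dvd_right e _)

/-- **The trace is the trace of the point of the angles.** -/
theorem normTrace_eq_torusTrace (hl2 : l ≠ 2) (φ : K →+* ℂ) {c : ℤ}
    {v : HeightOneSpectrum (𝓞 K)} (hv : IsGood l (4 * c) c v)
    (hp : (Ideal.absNorm v.asIdeal).Prime) :
    normTrace l c (Ideal.absNorm v.asIdeal) = torusTrace l (anglePoint φ l (4 * c) c v) := by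
  refine Complex.ofReal_injective ?_
  rw [normTrace_eq_angles hl2 φ hv hp, sum_Icc_pairs hl2, torusTrace_apply, Complex.ofReal_sum]
  refine Finset.sum_congr rfl fun i _ => ?_
  obtain ⟨h0, ht, h1, h2, -, -⟩ := tIdx_spec hl2 i
  rw [anglePoint, fourier_circlePoint (norm_angleVal hl2 φ hv h1 h2), zpow_one,
    ← conj_angleVal φ _ _ v h0 ht, Complex.add_conj]

/-- `l - 1` primes lie over `p ≡ 1`. -/
theorem card_primes_above {c : ℤ} {p N : ℕ} (h : GoodPrime l c p) (hN : p ≤ N) :
    ((primesLE K N).filter fun v => Ideal.absNorm v.asIdeal = p).card = l - 1 := by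
  obtain ⟨hp, hp1, -⟩ := h
  have := Fact.mk hp
  have : NeZero l := ⟨hl.out.ne_zero⟩
  have hql : p ≠ l := fun e => by rw [e, Nat.mod_self] at hp1; exact zero_ne_one hp1
  have hord : orderOf (p : ZMod l) = 1 := by
    rw [orderOf_eq_one_iff, ← ZMod.natCast_mod, hp1, Nat.cast_one]
  have hpm : ¬ p ∣ l := fun e => hql ((Nat.prime_dvd_prime_iff_eq hp hl.out).1 e)
  obtain ⟨v₀, hv₀⟩ := exists_prime_over (K := K) p
  have hcard := card_conjugates_mul (l := l) hv₀ hql
  rw [hord, one_mul] at hcard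
  rw [← hcard]
  congr 1
  ext w
  rw [Finset.mem_filter, mem_primesLE, mem_conjugates_iff l hv₀]
  constructor
  · rintro ⟨-, e⟩
    rw [← e]
    exact Ideal.absNorm_mem _
  · intro hw
    have e := FA.GaussValuation.absNorm_eq (m := l) hw hpm
    rw [hord, pow_one] at e
    exact ⟨e.trans_le hN, e⟩

/-- The primes up to `N` congruent to `1`. -/
def primesOne (l N : ℕ) : Finset ℕ :=
  ((Finset.range (N + 1)).filter Nat.Prime).filter fun p => p % l = 1

omit hl in
theorem tendsto_log_mul_const (a : ℝ) :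
    Tendsto (fun N : ℕ => Real.log N / N * a) atTop (𝓝 0) := by
  simpa using ((Real.isLittleO_log_id_atTop.tendsto_div_nhds_zero).comp
    tendsto_natCast_atTop_atTop).mul_const a

/-- **The law at the primes `p ≡ 1`.** -/
theorem tendsto_sum_primesOne (hl2 : l ≠ 2) {c : ℤ} (hc : c ≠ 0) (F : C(ℝ, ℝ)) :
    Tendsto (fun N : ℕ => Real.log N / N * ∑ p ∈ primesOne l N, F (normTrace l c p)) atTop
      (𝓝 ((∫ θ, F (torusTrace l θ)) / (l - 1 : ℝ))) := by
  let K := CyclotomicField l ℚ
  have : NeZero l := ⟨hl.out.ne_zero⟩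
  have : IsCyclotomicExtension {l} ℚ K := CyclotomicField.isCyclotomicExtension l ℚ
  obtain ⟨φ⟩ : Nonempty (K →+* ℂ) := inferInstance
  have := FA.BiluTorus.isProbability_torus (ι := Fin (l / 2))
  have h1 := (equidistributed_anglePoint hl2 φ (u := 4 * c) (d := c)
    (mul_ne_zero four_ne_zero hc) hc).real (F.comp (torusTrace l))
  set I : ℝ := ∫ θ, F (torusTrace l θ) with hI
  set G : ℕ → ℝ := fun p => if GoodPrime l c p then F (normTrace l c p) else 0 with hG
  set B : ℝ := ‖F.comp (torusTrace l)‖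
  have hB : ∀ v : HeightOneSpectrum (𝓞 K), ‖G (Ideal.absNorm v.asIdeal)‖ ≤ B := fun v => by
    by_cases h : GoodPrime l c (Ideal.absNorm v.asIdeal)
    · rw [hG]
      simp only [if_pos h]
      rw [normTrace_eq_torusTrace hl2 φ (isGood_of_goodPrime hc h) h.1]
      exact (F.comp (torusTrace l)).norm_coe_le_norm _
    · rw [hG]
      simp only [if_neg h, norm_zero]
      exact norm_nonneg _
  have h2 : HasMean (fun v : HeightOneSpectrum (𝓞 K) => G (Ideal.absNorm v.asIdeal)) I := by
    refine hasMean_congr _ (finite_not_isGood (K := K) (l := l) (mul_ne_zero four_ne_zero hc) hc)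
      (B := B + B) (fun v => ?_) (fun v hv hp => ?_) h1
    · exact (norm_sub_le _ _).trans (add_le_add (hB v) ((F.comp (torusTrace l)).norm_coe_le_norm _))
    · have hv' : IsGood l (4 * c) c v := not_not.1 hv
      rw [hG]
      simp only [if_pos (goodPrime_of_isGood hv' hp), normTrace_eq_torusTrace hl2 φ hv' hp,
        ContinuousMap.comp_apply]
  have h3 : ∀ N : ℕ, wSum (fun v : HeightOneSpectrum (𝓞 K) => G (Ideal.absNorm v.asIdeal)) N =
      (l - 1 : ℝ) * ∑ p ∈ primesOne l N, G p := fun N => by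
    rw [wSum, Nat.floor_natCast, ← Finset.sum_fiberwise_of_maps_to (t := Finset.range (N + 1))
      (g := fun v : HeightOneSpectrum (𝓞 K) => Ideal.absNorm v.asIdeal)
      (fun v hv => Finset.mem_range.2 (Nat.lt_succ_of_le (mem_primesLE.1 hv))), Finset.mul_sum]
    rw [← Finset.sum_subset (show primesOne l N ⊆ Finset.range (N + 1) from
      (Finset.filter_subset _ _).trans (Finset.filter_subset _ _)) fun p hp hp' => ?_]
    · refine Finset.sum_congr rfl fun p hp => ?_
      rw [Finset.sum_congr rfl fun v hv => show G (Ideal.absNorm v.asIdeal) = G p by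
        rw [(Finset.mem_filter.1 hv).2], Finset.sum_const, nsmul_eq_mul]
      by_cases h : GoodPrime l c p
      · rw [card_primes_above h (by
          have := (Finset.mem_filter.1 (Finset.mem_filter.1 hp).1).1
          rw [Finset.mem_range] at this; omega), Nat.cast_sub hl.out.one_le, Nat.cast_one]
      · simp [hG, h]
    · refine Finset.sum_eq_zero fun v hv => ?_
      rw [(Finset.mem_filter.1 hv).2, hG]
      refine if_neg fun h => hp' ?_
      exact Finset.mem_filter.2 ⟨Finset.mem_filter.2 ⟨hp, h.1⟩, h.2.1⟩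
  have hl1 : (l - 1 : ℝ) ≠ 0 := sub_ne_zero.2 (by exact_mod_cast hl.out.one_lt.ne')
  have h4 : Tendsto (fun N : ℕ => Real.log N / N * ∑ p ∈ primesOne l N, G p) atTop
      (𝓝 (I / (l - 1 : ℝ))) := by
    refine ((h2.comp tendsto_natCast_atTop_atTop).div_const (l - 1 : ℝ)).congr fun N => ?_
    rw [Function.comp_apply, h3, smul_eq_mul]
    field_simp
  set S := (Finset.range (2 * c.natAbs + 1)).filter fun p => p.Prime ∧ p % l = 1 ∧ p ∣ 2 * c.natAbs
  have h5 := h4.add (tendsto_log_mul_const (∑ p ∈ S, F (normTrace l c p)))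
  rw [add_zero] at h5
  refine h5.congr' ?_
  filter_upwards [eventually_ge_atTop (2 * c.natAbs)] with N hN
  rw [← mul_add]
  congr 1
  rw [← Finset.sum_filter_add_sum_filter_not (primesOne l N) (fun p => p ∣ 2 * c.natAbs)
    (fun p => F (normTrace l c p)), add_comm]
  congr 1
  · refine Finset.sum_congr ?_ fun _ _ => rfl
    ext p
    simp only [S, primesOne, Finset.mem_filter, Finset.mem_range]
    constructor
    · rintro ⟨h1, h2, h3, h4⟩; exact ⟨⟨⟨by omega, h2⟩, h3⟩, h4⟩
    · rintro ⟨⟨⟨h1, h2⟩, h3⟩, h4⟩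
      exact ⟨Nat.lt_succ_of_le (Nat.le_of_dvd (by have := Int.natAbs_pos.2 hc; omega) h4), h2, h3, h4⟩
  · rw [Finset.sum_filter]
    refine Finset.sum_congr rfl fun p hp => ?_
    simp only [primesOne, Finset.mem_filter] at hp
    rw [hG]
    beta_reduce
    by_cases h : p ∣ 2 * c.natAbs
    · rw [if_neg (fun g : GoodPrime l c p => g.2.2 h), if_neg (fun g => g h)]
    · rw [if_pos (show GoodPrime l c p from ⟨hp.1.2, hp.2, h⟩), if_pos h]

/-- **Infinitely many primes in an open set of traces.** -/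
theorem infinite_primes_trace (hl2 : l ≠ 2) {c : ℤ} (hc : c ≠ 0) {U : Set ℝ} (hU : IsOpen U)
    (hne : ∃ θ, torusTrace l θ ∈ U) :
    {p : ℕ | p.Prime ∧ p % l = 1 ∧ normTrace l c p ∈ U}.Infinite := by
  let K := CyclotomicField l ℚ
  have : NeZero l := ⟨hl.out.ne_zero⟩
  have : IsCyclotomicExtension {l} ℚ K := CyclotomicField.isCyclotomicExtension l ℚ
  obtain ⟨φ⟩ : Nonempty (K →+* ℂ) := inferInstance
  have := FA.BiluTorus.isProbability_torus (ι := Fin (l / 2))
  have h1 := (equidistributed_anglePoint hl2 φ (u := 4 * c) (d := c)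
    (mul_ne_zero four_ne_zero hc) hc).infinite_degree_one (hU.preimage (torusTrace l).continuous) hne
  intro hfin
  refine (h1.sdiff (finite_not_isGood (K := K) (l := l) (mul_ne_zero four_ne_zero hc) hc))
    (((hfin.toFinset.biUnion fun p => primesLE K p).finite_toSet).subset ?_)
  rintro v ⟨⟨hp, hvU⟩, hv⟩
  have hv' : IsGood l (4 * c) c v := not_not.1 hv
  have hgood := goodPrime_of_isGood hv' hp
  rw [Finset.mem_coe, Finset.mem_biUnion]
  exact ⟨Ideal.absNorm v.asIdeal, hfin.mem_toFinset.2 ⟨hp, hgood.2.1, by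
    rw [normTrace_eq_torusTrace hl2 φ hv' hp]; exact hvU⟩, mem_primesLE.2 le_rfl⟩

end FA.JacobiST

end
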