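import Fermat.Agent.JacobiSatoTate.Character
import Fermat.Agent.BiluTorus.Torus

/-!
# The angles are equidistributed on the whole torus

The monomials in the angles have mean zero and span a dense subspace, so the point of the angles of
`(d / N v) χ_v (u) ^ t J_{t,t} (v)`, `1 ≤ t ≤ (l - 1) / 2`, is equidistributed in the torus of
dimension `(l - 1) / 2`.
-/

set_option autoImplicit false
set_option linter.unusedSectionVars false

noncomputable section

open NumberField IsDedekindDomain MeasureTheory Filter Topology
open FA.Hecke (HasMean hasMean_one hasMean_congr)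
open FA.PrimeEquidist
open scoped Classical

namespace FA.JacobiST

universe u

variable {K : Type u} [Field K] [NumberField K] {l : ℕ} [hl : Fact l.Prime]
  [IsCyclotomicExtension {l} ℚ K]

/-- The point of the angles. -/
def anglePoint (φ : K →+* ℂ) (l : ℕ) (u d : ℤ) (v : HeightOneSpectrum (𝓞 K)) :
    UnitAddTorus (Fin (l / 2)) := fun i => circlePoint (angleVal φ l u d v (tIdx i))

theorem mFourier_anglePoint (hl2 : l ≠ 2) (φ : K →+* ℂ) {u d : ℤ} (e : Fin (l / 2) → ℤ)
    {v : HeightOneSpectrum (𝓞 K)} (hv : IsGood l u d v) :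
    UnitAddTorus.mFourier e (anglePoint φ l u d v) = ∏ i, angleVal φ l u d v (tIdx i) ^ e i := by
  show ∏ i, fourier (e i) (anglePoint φ l u d v i) = _
  refine Finset.prod_congr rfl fun i _ => ?_
  obtain ⟨-, -, h1, h2, -, -⟩ := tIdx_spec hl2 i
  rw [anglePoint, fourier_circlePoint (norm_angleVal hl2 φ hv h1 h2)]

/-- **Equidistribution on the torus.** -/
theorem equidistributed_anglePoint (hl2 : l ≠ 2) (φ : K →+* ℂ) {u d : ℤ} (hu : u ≠ 0)
    (hd : d ≠ 0) :
    Equidistributed (volume : Measure (UnitAddTorus (Fin (l / 2)))) (anglePoint φ l u d) := by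
  have := FA.BiluTorus.isProbability_torus (ι := Fin (l / 2))
  refine equidistributed_of_dense
    (S := Set.range (UnitAddTorus.mFourier (d := Fin (l / 2))))
    ((Submodule.dense_iff_topologicalClosure_eq_top).2 UnitAddTorus.span_mFourier_closure_eq_top) ?_
  rintro _ ⟨e, rfl⟩
  rw [FA.BiluTorus.integral_mFourier]
  split_ifs with he
  · subst he
    simpa [UnitAddTorus.mFourier_zero] using (hasMean_one K).map Complex.ofRealCLM
  · refine hasMean_congr _ (finite_not_isGood (K := K) (l := l) hu hd) (B := 2) (fun v => ?_)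
      (fun v hv _ => ?_) (hasMean_monomial hl2 φ hu hd he)
    · refine (norm_sub_le _ _).trans ?_
      have h1 : ‖UnitAddTorus.mFourier e (anglePoint φ l u d v)‖ ≤ 1 :=
        (ContinuousMap.norm_coe_le_norm _ _).trans UnitAddTorus.mFourier_norm.le
      linarith [norm_monomialChar_le hl2 φ hu hd he v]
    · have hv' : IsGood l u d v := not_not.1 hv
      rw [mFourier_anglePoint hl2 φ e hv', monomialChar_normalised hl2 φ e hv']

end FA.JacobiST

end
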